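import Fermat.Agent.CFT.F.Shapiro.Maps

/-!
# CFT / Part F : Shapiro / Mackey layer.  Compatibility of the evaluation maps with restriction.
-/

set_option autoImplicit false

namespace Fermat.Agent.CFT

open Shapiro

section general

variable {D : Datum} {k : Type} [CommRing k] {V : Type} [AddCommGroup V] [Module k V]
  {ρ : Representation k D.G V}

lemma Datum.mem_ZL1_iff {c : ∀ v, D.Gv v → V} :
    c ∈ D.ZL1 ρ ↔ ∀ v, c v ∈ Z1 (D.levv v) (D.loc ρ v) := by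
  simp [Datum.ZL1, Submodule.mem_pi]

lemma Datum.mem_ZL2_iff {c : ∀ v, D.Gv v × D.Gv v → V} :
    c ∈ D.ZL2 ρ ↔ ∀ v, c v ∈ Z2 (D.levv v) (D.loc ρ v) := by
  simp [Datum.ZL2, Submodule.mem_pi]

lemma Datum.mem_RL1_iff {c : ∀ v, D.Gv v → V} :
    c ∈ D.RL1 ρ ↔ ∃ b : ∀ v, D.Gv v → V, (∀ v, b v ∈ B1 (D.loc ρ v)) ∧
      ∃ a ∈ Z1 D.lev ρ, b + D.res1 (k := k) a = c := by
  simp only [Datum.RL1, Submodule.mem_sup, Submodule.mem_pi, Set.mem_univ, forall_true_left,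
    Submodule.mem_map, exists_exists_and_eq_and]

lemma Datum.mem_RL2_iff {c : ∀ v, D.Gv v × D.Gv v → V} :
    c ∈ D.RL2 ρ ↔ ∃ b : ∀ v, D.Gv v × D.Gv v → V, (∀ v, b v ∈ B2 (D.levv v) (D.loc ρ v)) ∧
      ∃ a ∈ Z2 D.lev ρ, b + D.res2 (k := k) a = c := by
  simp only [Datum.RL2, Submodule.mem_sup, Submodule.mem_pi, Set.mem_univ, forall_true_left,
    Submodule.mem_map, exists_exists_and_eq_and]

lemma Datum.mem_ShaZ1_iff {c : D.G → V} :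
    c ∈ D.ShaZ1 ρ ↔ c ∈ Z1 D.lev ρ ∧ ∀ v, D.res1 (k := k) c v ∈ B1 (D.loc ρ v) := by
  simp [Datum.ShaZ1, Submodule.mem_pi]

lemma Datum.mem_ShaZ2_iff {c : D.G × D.G → V} :
    c ∈ D.ShaZ2 ρ ↔ c ∈ Z2 D.lev ρ ∧ ∀ v, D.res2 (k := k) c v ∈ B2 (D.levv v) (D.loc ρ v) := by
  simp [Datum.ShaZ2, Submodule.mem_pi]

lemma Datum.res1_mem_Z1 {c : D.G → V} (hc : c ∈ Z1 D.lev ρ) (v : D.ι) :
    D.res1 (k := k) c v ∈ Z1 (D.levv v) (D.loc ρ v) :=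
  comp_hom_mem_Z1 (D.r v) (D.cont v) hc

lemma Datum.res2_mem_Z2 {c : D.G × D.G → V} (hc : c ∈ Z2 D.lev ρ) (v : D.ι) :
    D.res2 (k := k) c v ∈ Z2 (D.levv v) (D.loc ρ v) :=
  comp_hom_mem_Z2 (D.r v) (D.cont v) hc

end general

variable {D : Datum} {W : Subgroup D.G} (hW : W ∈ D.lev.carrier) (R : D.RestrData W)
  {k : Type} [CommRing k]

lemma isDiag_permRep : IsDiag (actQ W) (1 : Representation k D.G k) (permRep k W) :=
  fun _ _ _ => rfl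

/-- compatibility in degree 1 (on the nose) -/
lemma Datum.comp1 {c : D.G → (D.G ⧸ W) → k} (hc : c ∈ Z1 D.lev (permRep k W)) :
    D.shL1 hW R k (D.res1 (k := k) c) = (D.restr hW R).res1 (k := k) (D.shG1 hW R k c) := by
  funext ⟨v, o⟩ (s : ↥(W.comap (D.r v)))
  have key := key1 (ρ := (1 : Representation k D.G k)) (isDiag_permRep.coc1 (mem_Z1_iff.1 hc).1)
    (D.r v s.1) (R.g v o) (R.g v o) ((R.g v o)⁻¹ * D.r v s.1 * R.g v o) (by group)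
    ((R.g v o : D.G) : D.G ⧸ W)
  have e1 : actQ W (R.g v o)⁻¹ ((R.g v o : D.G) : D.G ⧸ W) = ((1 : D.G) : D.G ⧸ W) := by
    rw [actQ_mk, inv_mul_cancel]
  have e2 : actQ W (D.r v s.1)⁻¹ ((R.g v o : D.G) : D.G ⧸ W) = ((R.g v o : D.G) : D.G ⧸ W) := by
    rw [actQ_apply]
    exact smul_eq_of_mem (D.lev.normal W hW) (W.inv_mem s.2) _
  rw [e1, e2] at key
  simp only [MonoidHom.one_apply, Module.End.one_apply, sub_self, sub_zero] at key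
  exact key

/-- the correcting cochain in degree 2 -/
def Datum.compB (c : D.G × D.G → (D.G ⧸ W) → k) (w : (D.restr hW R).ι) :
    (D.restr hW R).Gv w → k :=
  fun s : ↥(W.comap (D.r w.1)) =>
    c (R.g w.1 w.2, (R.g w.1 w.2)⁻¹ * D.r w.1 s.1 * R.g w.1 w.2) ((R.g w.1 w.2 : D.G) : D.G ⧸ W)
      - c (D.r w.1 s.1, R.g w.1 w.2) ((R.g w.1 w.2 : D.G) : D.G ⧸ W)

lemma Datum.compB_mem_C1 {c : D.G × D.G → (D.G ⧸ W) → k} (hc : c ∈ Z2 D.lev (permRep k W))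
    (w : (D.restr hW R).ι) : D.compB hW R c w ∈ C1 k k ((D.restr hW R).levv w) := by
  obtain ⟨v, o⟩ := w
  obtain ⟨U, hU, hcU⟩ := (mem_Z2_iff.1 hc).2
  obtain ⟨V, hV, hVU⟩ := D.cont v U hU
  refine ⟨_, ⟨V, hV, rfl⟩, fun (s u : ↥(W.comap (D.r v))) hu => ?_⟩
  have h1 : D.r v u.1 ∈ U := hVU hu
  have h2 : (R.g v o)⁻¹ * D.r v u.1 * R.g v o ∈ U := by
    have := (D.lev.normal U hU).conj_mem _ h1 (R.g v o)⁻¹
    simpa using this
  have e1 := hcU (R.g v o) ((R.g v o)⁻¹ * D.r v s.1 * R.g v o) 1 _ U.one_mem h2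
  have e2 := hcU (D.r v s.1) (R.g v o) _ 1 h1 U.one_mem
  rw [mul_one] at e1 e2
  have e3 : (R.g v o)⁻¹ * D.r v s.1 * R.g v o * ((R.g v o)⁻¹ * D.r v u.1 * R.g v o)
      = (R.g v o)⁻¹ * D.r v (s * u).1 * R.g v o := by
    rw [Subgroup.coe_mul, map_mul]; group
  rw [e3] at e1
  have e4 : D.r v s.1 * D.r v u.1 = D.r v (s * u).1 := by
    rw [Subgroup.coe_mul, map_mul]
  rw [e4] at e2
  show c (R.g v o, (R.g v o)⁻¹ * D.r v (s * u).1 * R.g v o) _ - c (D.r v (s * u).1, R.g v o) _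
    = c (R.g v o, (R.g v o)⁻¹ * D.r v s.1 * R.g v o) _ - c (D.r v s.1, R.g v o) _
  rw [e1, e2]

/-- compatibility in degree 2 (up to an explicit coboundary) -/
lemma Datum.comp2 {c : D.G × D.G → (D.G ⧸ W) → k} (hc : c ∈ Z2 D.lev (permRep k W))
    (w : (D.restr hW R).ι) :
    D.shL2 hW R k (D.res2 (k := k) c) w = (D.restr hW R).res2 (k := k) (D.shG2 hW R k c) w
      - d12 ((D.restr hW R).loc (D.one' hW R k) w) (D.compB hW R c w) := by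
  obtain ⟨v, o⟩ := w
  funext (s : ↥(W.comap (D.r v)) × ↥(W.comap (D.r v)))
  have key := key2 (ρ := (1 : Representation k D.G k)) (isDiag_permRep.coc2 (mem_Z2_iff.1 hc).1)
    (D.r v s.1.1) (D.r v s.2.1) (R.g v o) (R.g v o) (R.g v o)
    ((R.g v o)⁻¹ * D.r v s.1.1 * R.g v o) ((R.g v o)⁻¹ * D.r v s.2.1 * R.g v o)
    (by group) (by group) ((R.g v o : D.G) : D.G ⧸ W)
  have e1 : actQ W (R.g v o)⁻¹ ((R.g v o : D.G) : D.G ⧸ W) = ((1 : D.G) : D.G ⧸ W) := by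
    rw [actQ_mk, inv_mul_cancel]
  have e2 : actQ W (D.r v s.1.1)⁻¹ ((R.g v o : D.G) : D.G ⧸ W) = ((R.g v o : D.G) : D.G ⧸ W) := by
    rw [actQ_apply]
    exact smul_eq_of_mem (D.lev.normal W hW) (W.inv_mem s.1.2) _
  have e3 : (R.g v o)⁻¹ * D.r v s.1.1 * R.g v o * ((R.g v o)⁻¹ * D.r v s.2.1 * R.g v o)
      = (R.g v o)⁻¹ * D.r v (s.1 * s.2).1 * R.g v o := by
    rw [Subgroup.coe_mul, map_mul]; group
  have e4 : D.r v s.1.1 * D.r v s.2.1 = D.r v (s.1 * s.2).1 := by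
    rw [Subgroup.coe_mul, map_mul]
  rw [e1, e2, e3, e4] at key
  simp only [MonoidHom.one_apply, Module.End.one_apply] at key
  exact key

end Fermat.Agent.CFT
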