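import Fermat.Agent.CFT.F.Shapiro.Key

/-!
# CFT / Part F : Shapiro / Mackey layer.  The core: function-level statements.

`H` acts on `X`; base points `x i` (`i : O`), one in every orbit; `o y` the orbit of `y`,
`t y ∈ H` with `t y • x (o y) = y`.  Cochains on the stabilisers are handled as functions on `H`
of which only the values on the stabiliser matter.
-/

set_option autoImplicit false

namespace Fermat.Agent.CFT.Shapiro

/-- a system of orbit representatives and transporters -/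
structure Sys (H : Type) [Group H] (X O : Type) where
  a : H →* Equiv.Perm X
  x : O → X
  o : X → O
  t : X → H
  t_spec : ∀ y, a (t y) (x (o y)) = y
  o_act : ∀ h y, o (a h y) = o y
  o_x : ∀ i, o (x i) = i
  t_x : ∀ i, t (x i) = 1

namespace Sys

variable {k : Type} [CommRing k] {H : Type} [Group H] {X O : Type} {V : Type} [AddCommGroup V]
  [Module k V] (S : Sys H X O)

/-- `s(h,y) = t(y)⁻¹ h t(h⁻¹ y)`, an element of the stabiliser of `x (o y)` -/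
def s (h : H) (y : X) : H := (S.t y)⁻¹ * h * S.t (S.a h⁻¹ y)

lemma a_mul (h₁ h₂ : H) (y : X) : S.a (h₁ * h₂) y = S.a h₁ (S.a h₂ y) := by
  rw [map_mul]; rfl

lemma a_one (y : X) : S.a 1 y = y := by
  rw [map_one]; rfl

lemma a_inv_a (h : H) (y : X) : S.a h⁻¹ (S.a h y) = y := by
  rw [← S.a_mul, inv_mul_cancel, S.a_one]

lemma a_a_inv (h : H) (y : X) : S.a h (S.a h⁻¹ y) = y := by
  rw [← S.a_mul, mul_inv_cancel, S.a_one]

lemma a_mul_inv (h₁ h₂ : H) (y : X) : S.a (h₁ * h₂)⁻¹ y = S.a h₂⁻¹ (S.a h₁⁻¹ y) := by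
  rw [mul_inv_rev, S.a_mul]

lemma t_mul_s (h : H) (y : X) : S.t y * S.s h y = h * S.t (S.a h⁻¹ y) := by
  rw [s, mul_assoc, mul_inv_cancel_left]

lemma a_t_inv (y : X) : S.a (S.t y)⁻¹ y = S.x (S.o y) := by
  have := S.a_inv_a (S.t y) (S.x (S.o y))
  rwa [S.t_spec] at this

lemma a_s (h : H) (y : X) : S.a (S.s h y) (S.x (S.o y)) = S.x (S.o y) := by
  have h1 : S.a (S.t (S.a h⁻¹ y)) (S.x (S.o y)) = S.a h⁻¹ y := by
    have := S.t_spec (S.a h⁻¹ y)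
    rwa [S.o_act] at this
  rw [s, S.a_mul, S.a_mul, h1, S.a_a_inv, S.a_t_inv]

lemma s_mul (h₁ h₂ : H) (y : X) : S.s (h₁ * h₂) y = S.s h₁ y * S.s h₂ (S.a h₁⁻¹ y) := by
  rw [s, s, s, S.a_mul_inv]
  group

lemma a_inv_x {i : O} {h : H} (hh : S.a h (S.x i) = S.x i) : S.a h⁻¹ (S.x i) = S.x i := by
  conv_lhs => rw [← hh]
  rw [S.a_inv_a]

lemma s_x {i : O} {h : H} (hh : S.a h (S.x i) = S.x i) : S.s h (S.x i) = h := by
  rw [s, S.a_inv_x hh, S.t_x, inv_one, one_mul, mul_one]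

lemma o_s (h : H) (y : X) : S.o (S.a h⁻¹ y) = S.o y := S.o_act _ _

variable (ρ : Representation k H V)

/-- coinduction of `0`-cochains -/
def co0 (μ : O → V) : X → V := fun y => ρ (S.t y) (μ (S.o y))
/-- coinduction of `1`-cochains -/
def co1 (c : O → H → V) : H → X → V := fun h y => ρ (S.t y) (c (S.o y) (S.s h y))
/-- coinduction of `2`-cochains -/
def co2 (c : O → H × H → V) : H × H → X → V :=
  fun h y => ρ (S.t y) (c (S.o y) (S.s h.1 y, S.s h.2 (S.a h.1⁻¹ y)))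
/-- the homotopy in degree 1 -/
def ho1 (c : H → X → V) : X → V := fun y => c (S.t y) y
/-- the homotopy in degree 2 -/
def ho2 (c : H × H → X → V) : H → X → V :=
  fun h y => c (S.t y, S.s h y) y - c (h, S.t (S.a h⁻¹ y)) y

variable {ρ} {σ : Representation k H (X → V)}

lemma rho_t_s (h : H) (y : X) (v : V) :
    ρ (S.t y) (ρ (S.s h y) v) = ρ h (ρ (S.t (S.a h⁻¹ y)) v) := by
  rw [← Module.End.mul_apply, ← map_mul, S.t_mul_s, map_mul, Module.End.mul_apply]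

/-- `d (co0 μ) = co1 (d μ)` -/
lemma d01_co0 (hσ : IsDiag S.a ρ σ) (μ : O → V) :
    d01 σ (S.co0 ρ μ) = S.co1 ρ (fun i h => ρ h (μ i) - μ i) := by
  funext h y
  rw [hσ.d01_apply]
  simp only [co0, co1, map_sub, S.rho_t_s, S.o_act]

/-- `d (co1 β) = co2 (d β)` -/
lemma d12_co1 (hσ : IsDiag S.a ρ σ) (β : O → H → V) :
    d12 σ (S.co1 ρ β) = S.co2 ρ (fun i h => ρ h.1 (β i h.2) - β i (h.1 * h.2) + β i h.1) := by
  funext h y
  rw [hσ.d12_apply]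
  simp only [co1, co2, map_sub, map_add, S.rho_t_s, S.o_act, S.s_mul]

/-- `d (co2 c) = co3 (d c)`, in the form we need -/
lemma d23_co2 (hσ : IsDiag S.a ρ σ) (c : O → H × H → V)
    (hc : ∀ i s₁ s₂ s₃, S.a s₁ (S.x i) = S.x i → S.a s₂ (S.x i) = S.x i → S.a s₃ (S.x i) = S.x i →
      ρ s₁ (c i (s₂, s₃)) - c i (s₁ * s₂, s₃) + c i (s₁, s₂ * s₃) - c i (s₁, s₂) = 0) :
    d23 σ (S.co2 ρ c) = 0 := by
  funext h y
  rw [hσ.d23_apply]
  have e : S.a (h.1 * h.2.1)⁻¹ y = S.a h.2.1⁻¹ (S.a h.1⁻¹ y) := S.a_mul_inv _ _ _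
  have h3 := S.a_s h.2.2 (S.a h.2.1⁻¹ (S.a h.1⁻¹ y))
  have h2 := S.a_s h.2.1 (S.a h.1⁻¹ y)
  simp only [S.o_act] at h2 h3
  have := hc (S.o y) (S.s h.1 y) (S.s h.2.1 (S.a h.1⁻¹ y))
    (S.s h.2.2 (S.a h.2.1⁻¹ (S.a h.1⁻¹ y))) (S.a_s _ _) h2 h3
  have := congrArg (ρ (S.t y)) this
  simp only [map_sub, map_add, map_zero, S.rho_t_s] at this
  simp only [co2, S.o_act, S.s_mul, e, Pi.zero_apply]
  exact this

lemma d12_co1_eq_zero (hσ : IsDiag S.a ρ σ) (c : O → H → V)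
    (hc : ∀ i s₁ s₂, S.a s₁ (S.x i) = S.x i → S.a s₂ (S.x i) = S.x i →
      ρ s₁ (c i s₂) - c i (s₁ * s₂) + c i s₁ = 0) :
    d12 σ (S.co1 ρ c) = 0 := by
  rw [S.d12_co1 hσ]
  funext h y
  have h2 := S.a_s h.2 (S.a h.1⁻¹ y)
  simp only [S.o_act] at h2
  simp only [co2, hc (S.o y) _ _ (S.a_s _ _) h2, map_zero, Pi.zero_apply]

lemma co1_x (c : O → H → V) {i : O} {h : H} (hh : S.a h (S.x i) = S.x i) :
    S.co1 ρ c h (S.x i) = c i h := by
  simp only [co1, S.t_x, S.o_x, S.s_x hh, map_one, Module.End.one_apply]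

lemma co2_x (c : O → H × H → V) {i : O} {h₁ h₂ : H} (hh₁ : S.a h₁ (S.x i) = S.x i)
    (hh₂ : S.a h₂ (S.x i) = S.x i) :
    S.co2 ρ c (h₁, h₂) (S.x i) = c i (h₁, h₂) := by
  simp only [co2, S.t_x, S.o_x, S.s_x hh₁, S.s_x hh₂, S.a_inv_x hh₁, map_one, Module.End.one_apply]

/-- homotopy formula in degree 1 -/
lemma eq_co1_sub (hσ : IsDiag S.a ρ σ) {c : H → X → V} (hc : d12 σ c = 0) :
    c = S.co1 ρ (fun i h => c h (S.x i)) - d01 σ (S.ho1 c) := by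
  funext h y
  rw [Pi.sub_apply, Pi.sub_apply, hσ.d01_apply]
  have := key1 (ρ := ρ) (hσ.coc1 hc) h (S.t y) (S.t (S.a h⁻¹ y)) (S.s h y) (S.t_mul_s h y) y
  rw [S.a_t_inv] at this
  exact this

/-- homotopy formula in degree 2 -/
lemma eq_co2_sub (hσ : IsDiag S.a ρ σ) {c : H × H → X → V} (hc : d23 σ c = 0) :
    c = S.co2 ρ (fun i h => c h (S.x i)) - d12 σ (S.ho2 c) := by
  funext ⟨h₁, h₂⟩ y
  rw [Pi.sub_apply, Pi.sub_apply, hσ.d12_apply]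
  have e : S.a (h₁ * h₂)⁻¹ y = S.a h₂⁻¹ (S.a h₁⁻¹ y) := S.a_mul_inv _ _ _
  have := key2 (ρ := ρ) (hσ.coc2 hc) h₁ h₂ (S.t y) (S.t (S.a h₁⁻¹ y))
    (S.t (S.a h₂⁻¹ (S.a h₁⁻¹ y))) (S.s h₁ y) (S.s h₂ (S.a h₁⁻¹ y)) (S.t_mul_s h₁ y)
    (S.t_mul_s h₂ _) y
  rw [S.a_t_inv] at this
  simp only [ho2, co2, S.s_mul, e]
  exact this

end Sys

end Fermat.Agent.CFT.Shapiro
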