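import Fermat.Agent.CFT.F.Spec
import Fermat.Agent.CFT.F.Lev

/-!
# CFT / Part F : Shapiro / Mackey layer.  Definitions.

* `Levels.comap f 𝒰` : pull-back of a level structure along a group homomorphism
  (for a subgroup `K ≤ G` use `f = K.subtype`).
* `Datum.RestrData D W` : representatives of the double cosets `G_v \ G / W` ("places over `v`").
* `Datum.restr D hW R` : the datum of the open normal subgroup `W` : global group `W`, local groups
  `r_v⁻¹ W ≤ G_v`, one for every double coset, mapped to `W` by `h ↦ g⁻¹ r_v(h) g`.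
* `Datum.GoodTriv D k` : the content of `GoodLevel` for the trivial representation.
-/

set_option autoImplicit false

namespace Fermat.Agent.CFT

open Module

/-- Representatives of the double cosets `G_v \ G / W`. -/
structure Datum.RestrData (D : Datum) (W : Subgroup D.G) where
  /-- the "places above `v`" -/
  O : D.ι → Type
  [fin : ∀ v, Fintype (O v)]
  [dec : ∀ v, DecidableEq (O v)]
  /-- representatives -/
  g : ∀ v, O v → D.G
  bij : ∀ v (x : D.G ⧸ W), ∃! o : O v, ∃ h : D.Gv v, x = ((D.r v h * g v o : D.G) : D.G ⧸ W)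

attribute [instance] Datum.RestrData.fin Datum.RestrData.dec

/-- conjugation `h ↦ g⁻¹ r(h) g` from `r⁻¹ W` to `W` (`W` normal) -/
def conjHom {G H : Type} [Group G] [Group H] (r : H →* G) (W : Subgroup G) (hW : W.Normal)
    (g : G) : ↥(W.comap r) →* ↥W where
  toFun h := ⟨g⁻¹ * r h * g, by
    have := hW.conj_mem (r h) h.2 g⁻¹
    simpa using this⟩
  map_one' := by ext; simp
  map_mul' a b := by ext; simp [mul_assoc]

@[simp] lemma conjHom_coe {G H : Type} [Group G] [Group H] (r : H →* G) (W : Subgroup G)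
    (hW : W.Normal) (g : G) (h : ↥(W.comap r)) :
    (conjHom r W hW g h : G) = g⁻¹ * r h * g := rfl

/-- The datum of the open normal subgroup `W`. -/
@[reducible] def Datum.restr (D : Datum) {W : Subgroup D.G} (hW : W ∈ D.lev.carrier) (R : D.RestrData W) :
    Datum where
  G := ↥W
  lev := D.lev.comap W.subtype
  ι := Σ v, R.O v
  Gv w := ↥(W.comap (D.r w.1))
  levv w := (D.levv w.1).comap (W.comap (D.r w.1)).subtype
  r w := conjHom (D.r w.1) W (D.lev.normal W hW) (R.g w.1 w.2)
  cont := by
    rintro w _ ⟨U, hU, rfl⟩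
    obtain ⟨V, hV, hVU⟩ := D.cont w.1 U hU
    refine ⟨_, ⟨V, hV, rfl⟩, ?_⟩
    intro h hh
    have h1 : D.r w.1 h ∈ U := hVU hh
    have := (D.lev.normal U hU).conj_mem _ h1 (R.g w.1 w.2)⁻¹
    have h2 : (R.g w.1 w.2)⁻¹ * D.r w.1 h * R.g w.1 w.2 ∈ U := by simpa using this
    exact h2

/-- The arithmetic input at a level, after Shapiro and Mackey: trivial coefficients. -/
structure Datum.GoodTriv (D : Datum) (k : Type) [Field k] : Prop where
  /-- the image of `H^2(G,k) → ∏_v H^2(G_v,k)` has codimension `≤ 1` -/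
  codim : ∃ c₀ ∈ D.ZL2 (1 : Representation k D.G k), ∀ c ∈ D.ZL2 (1 : Representation k D.G k),
    ∃ t : k, c - t • c₀ ∈ D.RL2 (1 : Representation k D.G k)
  finH1 : Module.Finite k (H1 D.lev (1 : Representation k D.G k))
  finLoc1 : ∀ v, Module.Finite k (H1 (D.levv v) (D.loc (1 : Representation k D.G k) v))
  finSha2 : Module.Finite k (D.Sha2 (1 : Representation k D.G k))
  /-- `∑_v h^1_v + 2 sha^2 ≤ 2 h^1` -/
  ineq' : (∑ v, finrank k (H1 (D.levv v) (D.loc (1 : Representation k D.G k) v)))
      + 2 * finrank k (D.Sha2 (1 : Representation k D.G k))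
    ≤ 2 * finrank k (H1 D.lev (1 : Representation k D.G k))

end Fermat.Agent.CFT
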