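import Fermat.Agent.CFT.F.Shapiro.Main

/-!
# CFT / Part F : Shapiro / Mackey layer.  `Coker1`, `Coker2`, and `GoodTriv → GoodLevel`.
-/

set_option autoImplicit false

namespace Fermat.Agent.CFT

open Shapiro Module

variable {D : Datum} {W : Subgroup D.G} (hW : W ∈ D.lev.carrier) (R : D.RestrData W)

section ring

variable {k : Type} [CommRing k]

lemma Datum.shL1_mem_ZL1 {z : ∀ v, D.Gv v → (D.G ⧸ W) → k} (hz : z ∈ D.ZL1 (permRep k W)) :
    D.shL1 hW R k z ∈ (D.restr hW R).ZL1 (D.one' hW R k) :=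
  Datum.mem_ZL1_iff.2 fun ⟨v, o⟩ => D.shL1_mem_Z1 hW R (Datum.mem_ZL1_iff.1 hz v) o

lemma Datum.shL2_mem_ZL2 {z : ∀ v, D.Gv v × D.Gv v → (D.G ⧸ W) → k}
    (hz : z ∈ D.ZL2 (permRep k W)) :
    D.shL2 hW R k z ∈ (D.restr hW R).ZL2 (D.one' hW R k) :=
  Datum.mem_ZL2_iff.2 fun ⟨v, o⟩ => D.shL2_mem_Z2 hW R (Datum.mem_ZL2_iff.1 hz v) o

lemma Datum.shL1_mem_RL1_iff {z : ∀ v, D.Gv v → (D.G ⧸ W) → k} (hz : z ∈ D.ZL1 (permRep k W)) :
    D.shL1 hW R k z ∈ (D.restr hW R).RL1 (D.one' hW R k) ↔ z ∈ D.RL1 (permRep k W) := by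
  rw [Datum.mem_RL1_iff, Datum.mem_RL1_iff]
  constructor
  · rintro ⟨b', hb', a', ha', e⟩
    obtain ⟨a, ha, rfl⟩ := D.exists_shG1 hW R ha'
    refine ⟨z - D.res1 (k := k) a, fun v => ?_, a, ha, sub_add_cancel _ _⟩
    refine D.mem_B1_of_shL1 hW R
      (Submodule.sub_mem _ (Datum.mem_ZL1_iff.1 hz v) (D.res1_mem_Z1 ha v)) fun o => ?_
    have : D.shL1 hW R k (z - D.res1 (k := k) a) = b' := by
      rw [map_sub, D.comp1 hW R ha, ← e, add_sub_cancel_right]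
    rw [this]
    exact hb' _
  · rintro ⟨b, hb, a, ha, rfl⟩
    refine ⟨D.shL1 hW R k b, fun ⟨v, o⟩ => D.shL1_mem_B1 hW R (hb v) o, D.shG1 hW R k a,
      D.shG1_mem_Z1 hW R ha, ?_⟩
    rw [map_add, D.comp1 hW R ha]

lemma Datum.shL2_mem_RL2_iff {z : ∀ v, D.Gv v × D.Gv v → (D.G ⧸ W) → k}
    (hz : z ∈ D.ZL2 (permRep k W)) :
    D.shL2 hW R k z ∈ (D.restr hW R).RL2 (D.one' hW R k) ↔ z ∈ D.RL2 (permRep k W) := by
  rw [Datum.mem_RL2_iff, Datum.mem_RL2_iff]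
  constructor
  · rintro ⟨b', hb', a', ha', e⟩
    obtain ⟨a, ha, rfl⟩ := D.exists_shG2 hW R ha'
    refine ⟨z - D.res2 (k := k) a, fun v => ?_, a, ha, sub_add_cancel _ _⟩
    refine D.mem_B2_of_shL2 hW R
      (Submodule.sub_mem _ (Datum.mem_ZL2_iff.1 hz v) (D.res2_mem_Z2 ha v)) fun o => ?_
    have : D.shL2 hW R k (z - D.res2 (k := k) a) ⟨v, o⟩ = b' ⟨v, o⟩
        + d12 ((D.restr hW R).loc (D.one' hW R k) ⟨v, o⟩) (D.compB hW R a ⟨v, o⟩) := by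
      rw [map_sub, Pi.sub_apply, D.comp2 hW R ha, ← e, Pi.add_apply]
      abel
    rw [this]
    exact Submodule.add_mem _ (hb' _) (D.compB_d12_mem_B2 hW R ha _)
  · rintro ⟨b, hb, a, ha, rfl⟩
    refine ⟨fun w => D.shL2 hW R k b w
        - d12 ((D.restr hW R).loc (D.one' hW R k) w) (D.compB hW R a w),
      fun ⟨v, o⟩ => Submodule.sub_mem _ (D.shL2_mem_B2 hW R (hb v) o)
        (D.compB_d12_mem_B2 hW R ha _), D.shG2 hW R k a, D.shG2_mem_Z2 hW R ha, ?_⟩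
    funext w
    rw [map_add, Pi.add_apply, Pi.add_apply, D.comp2 hW R ha]
    abel

variable (k)

theorem Datum.Coker1_restr : Nonempty (D.Coker1 (permRep k W) ≃ₗ[k]
    (D.restr hW R).Coker1 (D.one' hW R k)) :=
  quot_equiv (D.shL1 hW R k) (fun _ hz => D.shL1_mem_ZL1 hW R hz)
    (fun _ hz => D.shL1_mem_RL1_iff hW R hz)
    (fun z' hz' => by
      obtain ⟨c, hc, h⟩ := D.exists_shL1 hW R (Datum.mem_ZL1_iff.1 hz')
      exact ⟨c, Datum.mem_ZL1_iff.2 hc, by rw [h, sub_self]; exact zero_mem _⟩)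

theorem Datum.Coker2_restr : Nonempty (D.Coker2 (permRep k W) ≃ₗ[k]
    (D.restr hW R).Coker2 (D.one' hW R k)) :=
  quot_equiv (D.shL2 hW R k) (fun _ hz => D.shL2_mem_ZL2 hW R hz)
    (fun _ hz => D.shL2_mem_RL2_iff hW R hz)
    (fun z' hz' => by
      obtain ⟨c, hc, h⟩ := D.exists_shL2 hW R (Datum.mem_ZL2_iff.1 hz')
      exact ⟨c, Datum.mem_ZL2_iff.2 hc, by rw [h, sub_self]; exact zero_mem _⟩)

end ring

variable {k : Type} [Field k]

lemma Shapiro.finrank_pi' {ι : Type} [Fintype ι] {M : ι → Type} [∀ i, AddCommGroup (M i)]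
    [∀ i, Module k (M i)] (_h : ∀ i, Module.Finite k (M i)) :
    finrank k (∀ i, M i) = ∑ i, finrank k (M i) :=
  Module.finrank_pi_fintype k

lemma Shapiro.finite_pi' {ι : Type} [Finite ι] {M : ι → Type} [∀ i, AddCommGroup (M i)]
    [∀ i, Module k (M i)] (_h : ∀ i, Module.Finite k (M i)) :
    Module.Finite k (∀ i, M i) :=
  Module.Finite.pi

/-- **Shapiro-Mackey**: the arithmetic input may be checked over `W` with trivial coefficients. -/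
theorem Datum.GoodTriv.goodLevel (h : (D.restr hW R).GoodTriv k) : D.GoodLevel k W := by
  obtain ⟨eH1⟩ := D.H1_restr hW R k
  obtain ⟨eSha2⟩ := D.Sha2_restr hW R k
  have eLoc := fun v => D.locH1_restr hW R k v
  have := h.finH1
  have := h.finSha2
  have := h.finLoc1
  have hloc : ∀ v, finrank k (H1 (D.levv v) (D.loc (permRep k W) v))
      = ∑ o : R.O v, finrank k (H1 ((D.restr hW R).levv ⟨v, o⟩)
          ((D.restr hW R).loc (D.one' hW R k) ⟨v, o⟩)) := by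
    intro v
    obtain ⟨e⟩ := eLoc v
    rw [e.finrank_eq]
    exact Shapiro.finrank_pi' (M := fun o : R.O v => H1 ((D.restr hW R).levv ⟨v, o⟩)
      ((D.restr hW R).loc (D.one' hW R k) ⟨v, o⟩)) fun o => h.finLoc1 ⟨v, o⟩
  refine ⟨?_, Module.Finite.equiv eH1.symm, fun v => ?_, Module.Finite.equiv eSha2.symm, ?_⟩
  · obtain ⟨c₀', hc₀', hc⟩ := h.codim
    obtain ⟨c₀, hc₀, e⟩ := D.exists_shL2 hW R (Datum.mem_ZL2_iff.1 hc₀')
    have hc₀ := Datum.mem_ZL2_iff.2 hc₀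
    refine ⟨c₀, hc₀, fun c hcZ => ?_⟩
    obtain ⟨t, ht⟩ := hc _ (D.shL2_mem_ZL2 hW R hcZ)
    refine ⟨t, (D.shL2_mem_RL2_iff hW R
      (Submodule.sub_mem _ hcZ (Submodule.smul_mem _ _ hc₀))).1 ?_⟩
    rw [map_sub, map_smul, e]
    exact ht
  · obtain ⟨e⟩ := eLoc v
    have := Shapiro.finite_pi' (M := fun o : R.O v => H1 ((D.restr hW R).levv ⟨v, o⟩)
      ((D.restr hW R).loc (D.one' hW R k) ⟨v, o⟩)) fun o => h.finLoc1 ⟨v, o⟩
    exact Module.Finite.equiv e.symm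
  · rw [eH1.finrank_eq, eSha2.finrank_eq]
    simp only [hloc]
    rw [← Fintype.sum_sigma']
    exact h.ineq'

end Fermat.Agent.CFT
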