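import Fermat.Agent.CFT.F.Shapiro.Defs

/-!
# CFT / Part F : Shapiro / Mackey layer.  The two key cochain identities.

`H` acts on a set `X` (through `a : H →* Equiv.Perm X`), `σ` is the diagonal action on `X → V`.
-/

set_option autoImplicit false

namespace Fermat.Agent.CFT.Shapiro

variable {k : Type} [CommRing k] {H : Type} [Group H] {X : Type} {V : Type} [AddCommGroup V]
  [Module k V]

/-- `σ` is the diagonal action of `H` on `X → V`. -/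
def IsDiag (a : H →* Equiv.Perm X) (ρ : Representation k H V)
    (σ : Representation k H (X → V)) : Prop :=
  ∀ h F y, σ h F y = ρ h (F (a h⁻¹ y))

variable {a : H →* Equiv.Perm X} {ρ : Representation k H V} {σ : Representation k H (X → V)}

lemma IsDiag.coc1 (hσ : IsDiag a ρ σ) {c : H → X → V} (hc : d12 σ c = 0) (h₁ h₂ : H) (y : X) :
    ρ h₁ (c h₂ (a h₁⁻¹ y)) - c (h₁ * h₂) y + c h₁ y = 0 := by
  have := congrFun (congrFun hc (h₁, h₂)) y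
  simpa [d12_apply, hσ _ _ _] using this

lemma IsDiag.coc2 (hσ : IsDiag a ρ σ) {c : H × H → X → V} (hc : d23 σ c = 0) (h₁ h₂ h₃ : H)
    (y : X) :
    ρ h₁ (c (h₂, h₃) (a h₁⁻¹ y)) - c (h₁ * h₂, h₃) y + c (h₁, h₂ * h₃) y - c (h₁, h₂) y = 0 := by
  have := congrFun (congrFun hc (h₁, h₂, h₃)) y
  simpa [d23_apply, hσ _ _ _] using this

lemma IsDiag.d01_apply (hσ : IsDiag a ρ σ) (m : X → V) (h : H) (y : X) :
    d01 σ m h y = ρ h (m (a h⁻¹ y)) - m y := by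
  simp [Fermat.Agent.CFT.d01_apply, hσ _ _ _]

lemma IsDiag.d12_apply (hσ : IsDiag a ρ σ) (b : H → X → V) (h : H × H) (y : X) :
    d12 σ b h y = ρ h.1 (b h.2 (a h.1⁻¹ y)) - b (h.1 * h.2) y + b h.1 y := by
  simp [Fermat.Agent.CFT.d12_apply, hσ _ _ _]

lemma IsDiag.d23_apply (hσ : IsDiag a ρ σ) (c : H × H → X → V) (h : H × H × H) (y : X) :
    d23 σ c h y = ρ h.1 (c (h.2.1, h.2.2) (a h.1⁻¹ y)) - c (h.1 * h.2.1, h.2.2) y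
      + c (h.1, h.2.1 * h.2.2) y - c (h.1, h.2.1) y := by
  simp [Fermat.Agent.CFT.d23_apply, hσ _ _ _]

/-- key identity in degree 1 -/
lemma key1 {c : H → X → V}
    (hc : ∀ h₁ h₂ y, ρ h₁ (c h₂ (a h₁⁻¹ y)) - c (h₁ * h₂) y + c h₁ y = 0)
    (h t₀ t₁ s : H) (e : t₀ * s = h * t₁) (y : X) :
    c h y = ρ t₀ (c s (a t₀⁻¹ y)) - (ρ h (c t₁ (a h⁻¹ y)) - c t₀ y) := by
  have A := hc h t₁ y
  have B := hc t₀ s y
  rw [e] at B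
  have : c h y - (ρ t₀ (c s (a t₀⁻¹ y)) - (ρ h (c t₁ (a h⁻¹ y)) - c t₀ y))
      = (ρ h (c t₁ (a h⁻¹ y)) - c (h * t₁) y + c h y)
        - (ρ t₀ (c s (a t₀⁻¹ y)) - c (h * t₁) y + c t₀ y) := by abel
  rw [← sub_eq_zero, this, A, B, sub_zero]

/-- key identity in degree 2 -/
lemma key2 {c : H × H → X → V}
    (hc : ∀ h₁ h₂ h₃ y, ρ h₁ (c (h₂, h₃) (a h₁⁻¹ y)) - c (h₁ * h₂, h₃) y + c (h₁, h₂ * h₃) y
      - c (h₁, h₂) y = 0)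
    (h₁ h₂ t₀ t₁ t₂ s₁ s₂ : H) (e₁ : t₀ * s₁ = h₁ * t₁) (e₂ : t₁ * s₂ = h₂ * t₂) (y : X) :
    c (h₁, h₂) y = ρ t₀ (c (s₁, s₂) (a t₀⁻¹ y))
      - (ρ h₁ (c (t₁, s₂) (a h₁⁻¹ y) - c (h₂, t₂) (a h₁⁻¹ y))
          - (c (t₀, s₁ * s₂) y - c (h₁ * h₂, t₂) y) + (c (t₀, s₁) y - c (h₁, t₁) y)) := by
  have A := hc h₁ h₂ t₂ y
  have B := hc t₀ s₁ s₂ y
  have C := hc h₁ t₁ s₂ y
  rw [e₁] at B
  rw [e₂] at C
  rw [map_sub]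
  have : c (h₁, h₂) y - (ρ t₀ (c (s₁, s₂) (a t₀⁻¹ y))
      - (ρ h₁ (c (t₁, s₂) (a h₁⁻¹ y)) - ρ h₁ (c (h₂, t₂) (a h₁⁻¹ y))
          - (c (t₀, s₁ * s₂) y - c (h₁ * h₂, t₂) y) + (c (t₀, s₁) y - c (h₁, t₁) y)))
      = - (ρ h₁ (c (h₂, t₂) (a h₁⁻¹ y)) - c (h₁ * h₂, t₂) y + c (h₁, h₂ * t₂) y - c (h₁, h₂) y)
        - (ρ t₀ (c (s₁, s₂) (a t₀⁻¹ y)) - c (h₁ * t₁, s₂) y + c (t₀, s₁ * s₂) y - c (t₀, s₁) y)
        + (ρ h₁ (c (t₁, s₂) (a h₁⁻¹ y)) - c (h₁ * t₁, s₂) y + c (h₁, h₂ * t₂) y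
            - c (h₁, t₁) y) := by abel
  rw [← sub_eq_zero, this, A, B, C]
  simp

end Fermat.Agent.CFT.Shapiro
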