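import Fermat.Agent.CFT.F.Shapiro.Core
import Fermat.Agent.CFT.F.Basic

/-!
# CFT / Part F : Shapiro / Mackey layer.  Level-constancy of the explicit cochains.
-/

set_option autoImplicit false

namespace Fermat.Agent.CFT

namespace Shapiro

namespace Sys

variable {k : Type} [CommRing k] {H : Type} [Group H] {X O : Type} {V : Type} [AddCommGroup V]
  [Module k V] (S : Sys H X O) {ρ : Representation k H V}

lemma a_mul_right_inv {u : H} (hu : ∀ y, S.a u y = y) (h : H) (y : X) :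
    S.a (h * u)⁻¹ y = S.a h⁻¹ y := by
  rw [S.a_mul_inv]
  have := S.a_inv_a u (S.a h⁻¹ y)
  rwa [hu] at this

lemma s_mul_right {u : H} (hu : ∀ y, S.a u y = y) (h : H) (y : X) :
    S.s (h * u) y = S.s h y * ((S.t (S.a h⁻¹ y))⁻¹ * u * S.t (S.a h⁻¹ y)) := by
  rw [s, s, S.a_mul_right_inv hu]
  group

lemma a_conj {u : H} (hu : ∀ y, S.a u y = y) (g : H) (y : X) : S.a (g⁻¹ * u * g) y = y := by
  rw [S.a_mul, S.a_mul, hu, S.a_inv_a]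

variable {𝒱 : Levels H}

lemma conj_mem {U : Subgroup H} (hU : U ∈ 𝒱.carrier) {u : H} (hu : u ∈ U) (g : H) :
    g⁻¹ * u * g ∈ U := by
  have := (𝒱.normal U hU).conj_mem u hu g⁻¹
  simpa using this

/-- the action factors through a level -/
def Triv (S : Sys H X O) (𝒱 : Levels H) : Prop := ∃ U₀ ∈ 𝒱.carrier, ∀ u ∈ U₀, ∀ y, S.a u y = y

variable {S}

lemma LC1_co1 [Finite O] (hS : S.Triv 𝒱) (c : O → H → V)
    (hc : ∀ i, ∃ U ∈ 𝒱.carrier, ∀ s u, S.a s (S.x i) = S.x i → S.a u (S.x i) = S.x i → u ∈ U →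
      c i (s * u) = c i s) : 𝒱.LC1 (S.co1 ρ c) := by
  choose U hU hc using hc
  obtain ⟨U₀, hU₀, h0⟩ := hS
  obtain ⟨W₁, hW₁, hle⟩ := 𝒱.exists_le_of_finite U hU
  obtain ⟨W, hW, hWW₁, hWU₀⟩ := 𝒱.directed W₁ hW₁ U₀ hU₀
  refine ⟨W, hW, fun h u hu => funext fun y => ?_⟩
  have hu0 := h0 u (hWU₀ hu)
  simp only [co1]
  rw [S.s_mul_right hu0, hc (S.o y) _ _ (S.a_s _ _) (S.a_conj hu0 _ _)
    (hle _ (hWW₁ (conj_mem hW hu _)))]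

lemma LC2_co2 [Finite O] (hS : S.Triv 𝒱) (c : O → H × H → V)
    (hc : ∀ i, ∃ U ∈ 𝒱.carrier, ∀ s₁ s₂ u₁ u₂, S.a s₁ (S.x i) = S.x i → S.a s₂ (S.x i) = S.x i →
      S.a u₁ (S.x i) = S.x i → S.a u₂ (S.x i) = S.x i → u₁ ∈ U → u₂ ∈ U →
      c i (s₁ * u₁, s₂ * u₂) = c i (s₁, s₂)) : 𝒱.LC2 (S.co2 ρ c) := by
  choose U hU hc using hc
  obtain ⟨U₀, hU₀, h0⟩ := hS
  obtain ⟨W₁, hW₁, hle⟩ := 𝒱.exists_le_of_finite U hU
  obtain ⟨W, hW, hWW₁, hWU₀⟩ := 𝒱.directed W₁ hW₁ U₀ hU₀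
  refine ⟨W, hW, fun h₁ h₂ u₁ u₂ hu₁ hu₂ => funext fun y => ?_⟩
  have hu1 := h0 u₁ (hWU₀ hu₁)
  have hu2 := h0 u₂ (hWU₀ hu₂)
  have h2 := S.a_s h₂ (S.a h₁⁻¹ y)
  rw [S.o_act] at h2
  simp only [co2]
  rw [S.s_mul_right hu1, S.a_mul_right_inv hu1, S.s_mul_right hu2,
    hc (S.o y) _ _ _ _ (S.a_s _ _) h2 (S.a_conj hu1 _ _) (S.a_conj hu2 _ _)
    (hle _ (hWW₁ (conj_mem hW hu₁ _))) (hle _ (hWW₁ (conj_mem hW hu₂ _)))]

lemma LC1_ho2 (hS : S.Triv 𝒱) {c : H × H → X → V} (hc : 𝒱.LC2 c) : 𝒱.LC1 (S.ho2 c) := by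
  obtain ⟨U, hU, hc⟩ := hc
  obtain ⟨U₀, hU₀, h0⟩ := hS
  obtain ⟨W, hW, hWU, hWU₀⟩ := 𝒱.directed U hU U₀ hU₀
  refine ⟨W, hW, fun h u hu => funext fun y => ?_⟩
  have hu0 := h0 u (hWU₀ hu)
  simp only [ho2]
  rw [S.s_mul_right hu0, S.a_mul_right_inv hu0]
  have e1 := hc (S.t y) (S.s h y) 1 _ U.one_mem (hWU (conj_mem hW hu (S.t (S.a h⁻¹ y))))
  have e2 := hc h (S.t (S.a h⁻¹ y)) u 1 (hWU hu) U.one_mem
  rw [mul_one] at e1 e2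
  rw [e1, e2]

lemma co1_congr {c c' : O → H → V} (h : ∀ i s, S.a s (S.x i) = S.x i → c i s = c' i s) :
    S.co1 ρ c = S.co1 ρ c' := by
  funext g y
  simp only [co1, h _ _ (S.a_s _ _)]

lemma co2_congr {c c' : O → H × H → V}
    (h : ∀ i s₁ s₂, S.a s₁ (S.x i) = S.x i → S.a s₂ (S.x i) = S.x i → c i (s₁, s₂) = c' i (s₁, s₂)) :
    S.co2 ρ c = S.co2 ρ c' := by
  funext g y
  have h2 := S.a_s g.2 (S.a g.1⁻¹ y)
  rw [S.o_act] at h2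
  simp only [co2, h _ _ _ (S.a_s _ _) h2]

end Sys

end Shapiro

end Fermat.Agent.CFT
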