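import Fermat.Agent.CFT.F.Shapiro.Comp

/-!
# CFT / Part F : Shapiro / Mackey layer.  Main statements.

`(D, permRep k W)` versus `(D.restr hW R, 1)` : `H1`, `H2`, local `H1`, `H2`, `Sha1`, `Sha2`,
`Coker1`, `Coker2`, and `GoodTriv → GoodLevel`.
-/

set_option autoImplicit false

namespace Fermat.Agent.CFT

open Shapiro Module

variable {D : Datum} {W : Subgroup D.G} (hW : W ∈ D.lev.carrier) (R : D.RestrData W)
  (k : Type)

section ring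

variable [CommRing k]

theorem Datum.H1_restr : Nonempty (H1 D.lev (permRep k W) ≃ₗ[k]
    H1 (D.restr hW R).lev (D.one' hW R k)) :=
  quot_equiv (D.shG1 hW R k) (fun _ hz => D.shG1_mem_Z1 hW R hz)
    (fun _ hz => ⟨D.mem_B1_of_shG1 hW R hz, D.shG1_mem_B1 hW R⟩)
    (fun z' hz' => by
      obtain ⟨c, hc, h⟩ := D.exists_shG1 hW R hz'
      exact ⟨c, hc, by rw [h, sub_self]; exact zero_mem _⟩)

theorem Datum.H2_restr : Nonempty (H2 D.lev (permRep k W) ≃ₗ[k]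
    H2 (D.restr hW R).lev (D.one' hW R k)) :=
  quot_equiv (D.shG2 hW R k) (fun _ hz => D.shG2_mem_Z2 hW R hz)
    (fun _ hz => ⟨D.mem_B2_of_shG2 hW R hz, D.shG2_mem_B2 hW R⟩)
    (fun z' hz' => by
      obtain ⟨c, hc, h⟩ := D.exists_shG2 hW R hz'
      exact ⟨c, hc, by rw [h, sub_self]; exact zero_mem _⟩)

/-- local evaluation at one place `v`, degree 1 -/
def Datum.shLv1 (v : D.ι) : (D.Gv v → (D.G ⧸ W) → k) →ₗ[k]
    (∀ o : R.O v, (D.restr hW R).Gv ⟨v, o⟩ → k) where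
  toFun c o := fun s : ↥(W.comap (D.r v)) => c s.1 ((R.g v o : D.G) : D.G ⧸ W)
  map_add' _ _ := rfl
  map_smul' _ _ := rfl

/-- local evaluation at one place `v`, degree 2 -/
def Datum.shLv2 (v : D.ι) : (D.Gv v × D.Gv v → (D.G ⧸ W) → k) →ₗ[k]
    (∀ o : R.O v, (D.restr hW R).Gv ⟨v, o⟩ × (D.restr hW R).Gv ⟨v, o⟩ → k) where
  toFun c o := fun s : ↥(W.comap (D.r v)) × ↥(W.comap (D.r v)) =>
    c (s.1.1, s.2.1) ((R.g v o : D.G) : D.G ⧸ W)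
  map_add' _ _ := rfl
  map_smul' _ _ := rfl

/-- local `H^1` (Mackey) -/
theorem Datum.locH1_restr (v : D.ι) : Nonempty (H1 (D.levv v) (D.loc (permRep k W) v) ≃ₗ[k]
    ∀ o : R.O v, H1 ((D.restr hW R).levv ⟨v, o⟩) ((D.restr hW R).loc (D.one' hW R k) ⟨v, o⟩)) := by
  have T := R.lSetting D hW k v
  obtain ⟨e1⟩ := quot_equiv (D.shLv1 hW R k v) (Z := Z1 (D.levv v) (D.loc (permRep k W) v))
    (B := B1 (D.loc (permRep k W) v))
    (Z' := Submodule.pi Set.univ fun o : R.O v =>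
      Z1 ((D.restr hW R).levv ⟨v, o⟩) ((D.restr hW R).loc (D.one' hW R k) ⟨v, o⟩))
    (B' := Submodule.pi Set.univ fun o : R.O v =>
      B1 ((D.restr hW R).loc (D.one' hW R k) ⟨v, o⟩))
    (fun _ hz o _ => T.sh1_mem_Z1 hz o)
    (fun _ hz => ⟨fun h => T.mem_B1_of_sh1 hz fun o => h o (Set.mem_univ o),
      fun h o _ => T.sh1_mem_B1 h o⟩)
    (fun z' hz' => by
      obtain ⟨c, hc, h⟩ := T.exists_Z1 z' (fun o => hz' o (Set.mem_univ o))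
      refine ⟨c, hc, ?_⟩
      have : D.shLv1 hW R k v c = z' := h
      rw [this, sub_self]; exact zero_mem _)
  obtain ⟨e2⟩ := quot_pi_equiv (k := k)
    (fun o : R.O v => Z1 ((D.restr hW R).levv ⟨v, o⟩) ((D.restr hW R).loc (D.one' hW R k) ⟨v, o⟩))
    (fun o : R.O v => B1 ((D.restr hW R).loc (D.one' hW R k) ⟨v, o⟩))
  exact ⟨e1.trans e2⟩

/-- local `H^2` (Mackey) -/
theorem Datum.locH2_restr (v : D.ι) : Nonempty (H2 (D.levv v) (D.loc (permRep k W) v) ≃ₗ[k]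
    ∀ o : R.O v, H2 ((D.restr hW R).levv ⟨v, o⟩) ((D.restr hW R).loc (D.one' hW R k) ⟨v, o⟩)) := by
  have T := R.lSetting D hW k v
  obtain ⟨e1⟩ := quot_equiv (D.shLv2 hW R k v) (Z := Z2 (D.levv v) (D.loc (permRep k W) v))
    (B := B2 (D.levv v) (D.loc (permRep k W) v))
    (Z' := Submodule.pi Set.univ fun o : R.O v =>
      Z2 ((D.restr hW R).levv ⟨v, o⟩) ((D.restr hW R).loc (D.one' hW R k) ⟨v, o⟩))
    (B' := Submodule.pi Set.univ fun o : R.O v =>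
      B2 ((D.restr hW R).levv ⟨v, o⟩) ((D.restr hW R).loc (D.one' hW R k) ⟨v, o⟩))
    (fun _ hz o _ => T.sh2_mem_Z2 hz o)
    (fun _ hz => ⟨fun h => T.mem_B2_of_sh2 hz fun o => h o (Set.mem_univ o),
      fun h o _ => T.sh2_mem_B2 h o⟩)
    (fun z' hz' => by
      obtain ⟨c, hc, h⟩ := T.exists_Z2 z' (fun o => hz' o (Set.mem_univ o))
      refine ⟨c, hc, ?_⟩
      have : D.shLv2 hW R k v c = z' := h
      rw [this, sub_self]; exact zero_mem _)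
  obtain ⟨e2⟩ := quot_pi_equiv (k := k)
    (fun o : R.O v => Z2 ((D.restr hW R).levv ⟨v, o⟩) ((D.restr hW R).loc (D.one' hW R k) ⟨v, o⟩))
    (fun o : R.O v => B2 ((D.restr hW R).levv ⟨v, o⟩)
      ((D.restr hW R).loc (D.one' hW R k) ⟨v, o⟩))
  exact ⟨e1.trans e2⟩

variable {k}

/-- a global cocycle is locally trivial iff its Shapiro image is (degree 1) -/
lemma Datum.shG1_mem_ShaZ1_iff {c : D.G → (D.G ⧸ W) → k} (hc : c ∈ Z1 D.lev (permRep k W)) :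
    D.shG1 hW R k c ∈ (D.restr hW R).ShaZ1 (D.one' hW R k) ↔ c ∈ D.ShaZ1 (permRep k W) := by
  rw [Datum.mem_ShaZ1_iff, Datum.mem_ShaZ1_iff, ← D.comp1 hW R hc]
  constructor
  · rintro ⟨-, h⟩
    exact ⟨hc, fun v => D.mem_B1_of_shL1 hW R (D.res1_mem_Z1 hc v) fun o => h ⟨v, o⟩⟩
  · rintro ⟨-, h⟩
    exact ⟨D.shG1_mem_Z1 hW R hc, fun ⟨v, o⟩ => D.shL1_mem_B1 hW R (h v) o⟩

lemma Datum.compB_d12_mem_B2 {c : D.G × D.G → (D.G ⧸ W) → k} (hc : c ∈ Z2 D.lev (permRep k W))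
    (w : (D.restr hW R).ι) :
    d12 ((D.restr hW R).loc (D.one' hW R k) w) (D.compB hW R c w)
      ∈ B2 ((D.restr hW R).levv w) ((D.restr hW R).loc (D.one' hW R k) w) :=
  ⟨_, D.compB_mem_C1 hW R hc w, rfl⟩

lemma Datum.shL2_res2_mem_B2_iff {c : D.G × D.G → (D.G ⧸ W) → k}
    (hc : c ∈ Z2 D.lev (permRep k W)) (w : (D.restr hW R).ι) :
    D.shL2 hW R k (D.res2 (k := k) c) w
        ∈ B2 ((D.restr hW R).levv w) ((D.restr hW R).loc (D.one' hW R k) w) ↔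
      (D.restr hW R).res2 (k := k) (D.shG2 hW R k c) w
        ∈ B2 ((D.restr hW R).levv w) ((D.restr hW R).loc (D.one' hW R k) w) := by
  rw [D.comp2 hW R hc w]
  exact Submodule.sub_mem_iff_left _ (D.compB_d12_mem_B2 hW R hc w)

/-- a global cocycle is locally trivial iff its Shapiro image is (degree 2) -/
lemma Datum.shG2_mem_ShaZ2_iff {c : D.G × D.G → (D.G ⧸ W) → k}
    (hc : c ∈ Z2 D.lev (permRep k W)) :
    D.shG2 hW R k c ∈ (D.restr hW R).ShaZ2 (D.one' hW R k) ↔ c ∈ D.ShaZ2 (permRep k W) := by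
  rw [Datum.mem_ShaZ2_iff, Datum.mem_ShaZ2_iff]
  constructor
  · rintro ⟨-, h⟩
    exact ⟨hc, fun v => D.mem_B2_of_shL2 hW R (D.res2_mem_Z2 hc v) fun o =>
      (D.shL2_res2_mem_B2_iff hW R hc ⟨v, o⟩).2 (h ⟨v, o⟩)⟩
  · rintro ⟨-, h⟩
    exact ⟨D.shG2_mem_Z2 hW R hc, fun ⟨v, o⟩ =>
      (D.shL2_res2_mem_B2_iff hW R hc ⟨v, o⟩).1 (D.shL2_mem_B2 hW R (h v) o)⟩

variable (k)

theorem Datum.Sha1_restr : Nonempty (D.Sha1 (permRep k W) ≃ₗ[k]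
    (D.restr hW R).Sha1 (D.one' hW R k)) :=
  quot_equiv (D.shG1 hW R k)
    (fun _ hz => (D.shG1_mem_ShaZ1_iff hW R (Datum.mem_ShaZ1_iff.1 hz).1).2 hz)
    (fun _ hz => ⟨D.mem_B1_of_shG1 hW R (Datum.mem_ShaZ1_iff.1 hz).1, D.shG1_mem_B1 hW R⟩)
    (fun z' hz' => by
      obtain ⟨c, hc, h⟩ := D.exists_shG1 hW R (Datum.mem_ShaZ1_iff.1 hz').1
      refine ⟨c, (D.shG1_mem_ShaZ1_iff hW R hc).1 (h ▸ hz'), ?_⟩
      rw [h, sub_self]; exact zero_mem _)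

theorem Datum.Sha2_restr : Nonempty (D.Sha2 (permRep k W) ≃ₗ[k]
    (D.restr hW R).Sha2 (D.one' hW R k)) :=
  quot_equiv (D.shG2 hW R k)
    (fun _ hz => (D.shG2_mem_ShaZ2_iff hW R (Datum.mem_ShaZ2_iff.1 hz).1).2 hz)
    (fun _ hz => ⟨D.mem_B2_of_shG2 hW R (Datum.mem_ShaZ2_iff.1 hz).1, D.shG2_mem_B2 hW R⟩)
    (fun z' hz' => by
      obtain ⟨c, hc, h⟩ := D.exists_shG2 hW R (Datum.mem_ShaZ2_iff.1 hz').1
      refine ⟨c, (D.shG2_mem_ShaZ2_iff hW R hc).1 (h ▸ hz'), ?_⟩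
      rw [h, sub_self]; exact zero_mem _)

end ring

end Fermat.Agent.CFT
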