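import Fermat.Agent.CFT.F.Shapiro.Restr

/-!
# CFT / Part F : Shapiro / Mackey layer.  The evaluation maps between `(D, permRep k W)` and
`(D.restr hW R, 1)`, their properties, and the compatibility with restriction.
-/

set_option autoImplicit false

namespace Fermat.Agent.CFT

open Shapiro

variable {D : Datum} {W : Subgroup D.G} (hW : W ∈ D.lev.carrier) (R : D.RestrData W)
  (k : Type) [CommRing k]

/-- global evaluation at the trivial coset, degree 1 -/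
def Datum.shG1 : (D.G → (D.G ⧸ W) → k) →ₗ[k] ((D.restr hW R).G → k) where
  toFun c := fun s : ↥W => c s.1 ((1 : D.G) : D.G ⧸ W)
  map_add' _ _ := rfl
  map_smul' _ _ := rfl

/-- global evaluation at the trivial coset, degree 2 -/
def Datum.shG2 : (D.G × D.G → (D.G ⧸ W) → k) →ₗ[k] ((D.restr hW R).G × (D.restr hW R).G → k) where
  toFun c := fun s : ↥W × ↥W => c (s.1.1, s.2.1) ((1 : D.G) : D.G ⧸ W)
  map_add' _ _ := rfl
  map_smul' _ _ := rfl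

/-- local evaluation at the representatives, degree 1 -/
def Datum.shL1 : (∀ v, D.Gv v → (D.G ⧸ W) → k) →ₗ[k] (∀ w, (D.restr hW R).Gv w → k) where
  toFun c w := fun s : ↥(W.comap (D.r w.1)) => c w.1 s.1 ((R.g w.1 w.2 : D.G) : D.G ⧸ W)
  map_add' _ _ := rfl
  map_smul' _ _ := rfl

/-- local evaluation at the representatives, degree 2 -/
def Datum.shL2 : (∀ v, D.Gv v × D.Gv v → (D.G ⧸ W) → k) →ₗ[k]
    (∀ w, (D.restr hW R).Gv w × (D.restr hW R).Gv w → k) where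
  toFun c w := fun s : ↥(W.comap (D.r w.1)) × ↥(W.comap (D.r w.1)) =>
    c w.1 (s.1.1, s.2.1) ((R.g w.1 w.2 : D.G) : D.G ⧸ W)
  map_add' _ _ := rfl
  map_smul' _ _ := rfl

/-- the trivial representation of the global group of `D.restr hW R` -/
abbrev Datum.one' : Representation k (D.restr hW R).G k := 1

variable {k}

/-! ### global statements -/

lemma Datum.shG1_mem_Z1 {c : D.G → (D.G ⧸ W) → k} (hc : c ∈ Z1 D.lev (permRep k W)) :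
    D.shG1 hW R k c ∈ Z1 (D.restr hW R).lev (D.one' hW R k) :=
  (D.gSetting hW k).sh1_mem_Z1 hc ()

lemma Datum.shG1_mem_B1 {c : D.G → (D.G ⧸ W) → k} (hc : c ∈ B1 (permRep k W)) :
    D.shG1 hW R k c ∈ B1 (D.one' hW R k) :=
  (D.gSetting hW k).sh1_mem_B1 hc ()

lemma Datum.exists_shG1 {c' : (D.restr hW R).G → k}
    (hc' : c' ∈ Z1 (D.restr hW R).lev (D.one' hW R k)) :
    ∃ c ∈ Z1 D.lev (permRep k W), D.shG1 hW R k c = c' := by
  obtain ⟨c, hc, h⟩ := (D.gSetting hW k).exists_Z1 (fun _ => c') (fun _ => hc')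
  exact ⟨c, hc, congrFun h ()⟩

lemma Datum.mem_B1_of_shG1 {c : D.G → (D.G ⧸ W) → k} (hc : c ∈ Z1 D.lev (permRep k W))
    (h : D.shG1 hW R k c ∈ B1 (D.one' hW R k)) : c ∈ B1 (permRep k W) :=
  (D.gSetting hW k).mem_B1_of_sh1 hc (fun _ => h)

lemma Datum.shG2_mem_Z2 {c : D.G × D.G → (D.G ⧸ W) → k} (hc : c ∈ Z2 D.lev (permRep k W)) :
    D.shG2 hW R k c ∈ Z2 (D.restr hW R).lev (D.one' hW R k) :=
  (D.gSetting hW k).sh2_mem_Z2 hc ()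

lemma Datum.shG2_mem_B2 {c : D.G × D.G → (D.G ⧸ W) → k} (hc : c ∈ B2 D.lev (permRep k W)) :
    D.shG2 hW R k c ∈ B2 (D.restr hW R).lev (D.one' hW R k) :=
  (D.gSetting hW k).sh2_mem_B2 hc ()

lemma Datum.exists_shG2 {c' : (D.restr hW R).G × (D.restr hW R).G → k}
    (hc' : c' ∈ Z2 (D.restr hW R).lev (D.one' hW R k)) :
    ∃ c ∈ Z2 D.lev (permRep k W), D.shG2 hW R k c = c' := by
  obtain ⟨c, hc, h⟩ := (D.gSetting hW k).exists_Z2 (fun _ => c') (fun _ => hc')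
  exact ⟨c, hc, congrFun h ()⟩

lemma Datum.mem_B2_of_shG2 {c : D.G × D.G → (D.G ⧸ W) → k} (hc : c ∈ Z2 D.lev (permRep k W))
    (h : D.shG2 hW R k c ∈ B2 (D.restr hW R).lev (D.one' hW R k)) :
    c ∈ B2 D.lev (permRep k W) :=
  (D.gSetting hW k).mem_B2_of_sh2 hc (fun _ => h)

/-! ### local statements -/

lemma Datum.shL1_mem_Z1 {c : ∀ v, D.Gv v → (D.G ⧸ W) → k} {v : D.ι}
    (hc : c v ∈ Z1 (D.levv v) (D.loc (permRep k W) v)) (o : R.O v) :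
    D.shL1 hW R k c ⟨v, o⟩ ∈ Z1 ((D.restr hW R).levv ⟨v, o⟩)
      ((D.restr hW R).loc (D.one' hW R k) ⟨v, o⟩) :=
  (R.lSetting D hW k v).sh1_mem_Z1 hc o

lemma Datum.shL1_mem_B1 {c : ∀ v, D.Gv v → (D.G ⧸ W) → k} {v : D.ι}
    (hc : c v ∈ B1 (D.loc (permRep k W) v)) (o : R.O v) :
    D.shL1 hW R k c ⟨v, o⟩ ∈ B1 ((D.restr hW R).loc (D.one' hW R k) ⟨v, o⟩) :=
  (R.lSetting D hW k v).sh1_mem_B1 hc o

lemma Datum.exists_shL1 {c' : ∀ w, (D.restr hW R).Gv w → k}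
    (hc' : ∀ w, c' w ∈ Z1 ((D.restr hW R).levv w) ((D.restr hW R).loc (D.one' hW R k) w)) :
    ∃ c : ∀ v, D.Gv v → (D.G ⧸ W) → k, (∀ v, c v ∈ Z1 (D.levv v) (D.loc (permRep k W) v)) ∧
      D.shL1 hW R k c = c' := by
  have := fun v => (R.lSetting D hW k v).exists_Z1 (fun o => c' ⟨v, o⟩) (fun o => hc' ⟨v, o⟩)
  choose c hc h using this
  exact ⟨c, hc, funext fun ⟨v, o⟩ => congrFun (h v) o⟩

lemma Datum.mem_B1_of_shL1 {c : ∀ v, D.Gv v → (D.G ⧸ W) → k} {v : D.ι}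
    (hc : c v ∈ Z1 (D.levv v) (D.loc (permRep k W) v))
    (h : ∀ o : R.O v, D.shL1 hW R k c ⟨v, o⟩ ∈ B1 ((D.restr hW R).loc (D.one' hW R k) ⟨v, o⟩)) :
    c v ∈ B1 (D.loc (permRep k W) v) :=
  (R.lSetting D hW k v).mem_B1_of_sh1 hc h

lemma Datum.shL2_mem_Z2 {c : ∀ v, D.Gv v × D.Gv v → (D.G ⧸ W) → k} {v : D.ι}
    (hc : c v ∈ Z2 (D.levv v) (D.loc (permRep k W) v)) (o : R.O v) :
    D.shL2 hW R k c ⟨v, o⟩ ∈ Z2 ((D.restr hW R).levv ⟨v, o⟩)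
      ((D.restr hW R).loc (D.one' hW R k) ⟨v, o⟩) :=
  (R.lSetting D hW k v).sh2_mem_Z2 hc o

lemma Datum.shL2_mem_B2 {c : ∀ v, D.Gv v × D.Gv v → (D.G ⧸ W) → k} {v : D.ι}
    (hc : c v ∈ B2 (D.levv v) (D.loc (permRep k W) v)) (o : R.O v) :
    D.shL2 hW R k c ⟨v, o⟩ ∈ B2 ((D.restr hW R).levv ⟨v, o⟩)
      ((D.restr hW R).loc (D.one' hW R k) ⟨v, o⟩) :=
  (R.lSetting D hW k v).sh2_mem_B2 hc o

lemma Datum.exists_shL2 {c' : ∀ w, (D.restr hW R).Gv w × (D.restr hW R).Gv w → k}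
    (hc' : ∀ w, c' w ∈ Z2 ((D.restr hW R).levv w) ((D.restr hW R).loc (D.one' hW R k) w)) :
    ∃ c : ∀ v, D.Gv v × D.Gv v → (D.G ⧸ W) → k,
      (∀ v, c v ∈ Z2 (D.levv v) (D.loc (permRep k W) v)) ∧ D.shL2 hW R k c = c' := by
  have := fun v => (R.lSetting D hW k v).exists_Z2 (fun o => c' ⟨v, o⟩) (fun o => hc' ⟨v, o⟩)
  choose c hc h using this
  exact ⟨c, hc, funext fun ⟨v, o⟩ => congrFun (h v) o⟩

lemma Datum.mem_B2_of_shL2 {c : ∀ v, D.Gv v × D.Gv v → (D.G ⧸ W) → k} {v : D.ι}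
    (hc : c v ∈ Z2 (D.levv v) (D.loc (permRep k W) v))
    (h : ∀ o : R.O v, D.shL2 hW R k c ⟨v, o⟩ ∈ B2 ((D.restr hW R).levv ⟨v, o⟩)
      ((D.restr hW R).loc (D.one' hW R k) ⟨v, o⟩)) :
    c v ∈ B2 (D.levv v) (D.loc (permRep k W) v) :=
  (R.lSetting D hW k v).mem_B2_of_sh2 hc h

end Fermat.Agent.CFT
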