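import Mathlib

/-!
# CFT / Part F : Shapiro / Mackey layer.  Two abstract lemmas on subquotients.
-/

set_option autoImplicit false

namespace Fermat.Agent.CFT.Shapiro

variable {k : Type} [CommRing k]

/-- a linear map inducing an isomorphism of subquotients (elementwise criterion) -/
theorem quot_equiv {A A' : Type} [AddCommGroup A] [Module k A] [AddCommGroup A'] [Module k A']
    (f : A →ₗ[k] A') {Z B : Submodule k A} {Z' B' : Submodule k A'}
    (h1 : ∀ z ∈ Z, f z ∈ Z') (h2 : ∀ z ∈ Z, f z ∈ B' ↔ z ∈ B)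
    (h3 : ∀ z' ∈ Z', ∃ z ∈ Z, f z - z' ∈ B') :
    Nonempty ((↥Z ⧸ B.submoduleOf Z) ≃ₗ[k] (↥Z' ⧸ B'.submoduleOf Z')) := by
  let φ : ↥Z →ₗ[k] (↥Z' ⧸ B'.submoduleOf Z') := (B'.submoduleOf Z').mkQ ∘ₗ (f.restrict h1)
  have hker : LinearMap.ker φ = B.submoduleOf Z := by
    ext z
    rw [LinearMap.mem_ker]
    show (B'.submoduleOf Z').mkQ (f.restrict h1 z) = 0 ↔ _
    rw [Submodule.mkQ_apply, Submodule.Quotient.mk_eq_zero]
    exact h2 z z.2
  have hsurj : Function.Surjective φ := by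
    intro y
    obtain ⟨z', rfl⟩ := Submodule.mkQ_surjective _ y
    obtain ⟨z, hz, hzz⟩ := h3 z' z'.2
    refine ⟨⟨z, hz⟩, ?_⟩
    show (B'.submoduleOf Z').mkQ (f.restrict h1 ⟨z, hz⟩) = _
    rw [Submodule.mkQ_apply, Submodule.mkQ_apply, Submodule.Quotient.eq]
    exact hzz
  exact ⟨(Submodule.quotEquivOfEq _ _ hker.symm).trans (φ.quotKerEquivOfSurjective hsurj)⟩

/-- subquotients of a finite product -/
theorem quot_pi_equiv {ι : Type} [Fintype ι] [DecidableEq ι] {A : ι → Type}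
    [∀ i, AddCommGroup (A i)] [∀ i, Module k (A i)] (Z B : ∀ i, Submodule k (A i)) :
    Nonempty ((↥(Submodule.pi Set.univ Z) ⧸
        (Submodule.pi Set.univ B).submoduleOf (Submodule.pi Set.univ Z)) ≃ₗ[k]
      ∀ i, (↥(Z i) ⧸ (B i).submoduleOf (Z i))) := by
  let e : ↥(Submodule.pi Set.univ Z) ≃ₗ[k] (∀ i, ↥(Z i)) :=
    { toFun := fun a i => ⟨a.1 i, a.2 i (Set.mem_univ i)⟩
      invFun := fun a => ⟨fun i => (a i).1, fun i _ => (a i).2⟩
      map_add' := fun a b => rfl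
      map_smul' := fun c a => rfl
      left_inv := fun a => rfl
      right_inv := fun a => rfl }
  refine ⟨(Submodule.Quotient.equiv _
    (Submodule.pi Set.univ fun i => (B i).submoduleOf (Z i)) e ?_).trans (Submodule.quotientPi _)⟩
  ext x
  constructor
  · rintro ⟨y, hy, rfl⟩ i _
    exact hy i (Set.mem_univ i)
  · intro hx
    exact ⟨e.symm x, fun i _ => hx i (Set.mem_univ i), e.apply_symm_apply x⟩

end Fermat.Agent.CFT.Shapiro
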