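import Fermat.Agent.CFT.F.Shapiro.Sub
import Fermat.Agent.CFT.F.Shapiro.Quot

/-!
# CFT / Part F : Shapiro / Mackey layer.  The systems attached to `D.restr hW R`.
-/

set_option autoImplicit false

namespace Fermat.Agent.CFT.Shapiro

open Classical in
/-- construct a `Sys` from a system of representatives of the orbits -/
noncomputable def Sys.ofBij {H X O : Type} [Group H] (a : H →* Equiv.Perm X) (x : O → X)
    (bij : ∀ y, ∃! i, ∃ h : H, y = a h (x i)) : Sys H X O where
  a := a
  x := x
  o y := (bij y).exists.choose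
  t y := if y = x (bij y).exists.choose then 1 else (bij y).exists.choose_spec.choose
  t_spec y := by
    by_cases h : y = x (bij y).exists.choose
    · rw [if_pos h, map_one]
      exact h.symm
    · rw [if_neg h]
      exact (bij y).exists.choose_spec.choose_spec.symm
  o_act h y := by
    obtain ⟨h', hh'⟩ := (bij y).exists.choose_spec
    refine (bij (a h y)).unique (bij (a h y)).exists.choose_spec ⟨h * h', ?_⟩
    rw [map_mul, Equiv.Perm.mul_apply, ← hh']
  o_x i := (bij (x i)).unique (bij (x i)).exists.choose_spec ⟨1, by rw [map_one]; rfl⟩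
  t_x i := by
    have : (bij (x i)).exists.choose = i :=
      (bij (x i)).unique (bij (x i)).exists.choose_spec ⟨1, by rw [map_one]; rfl⟩
    rw [if_pos (by rw [this])]

@[simp] lemma Sys.ofBij_a {H X O : Type} [Group H] (a : H →* Equiv.Perm X) (x : O → X)
    (bij : ∀ y, ∃! i, ∃ h : H, y = a h (x i)) : (Sys.ofBij a x bij).a = a := rfl
@[simp] lemma Sys.ofBij_x {H X O : Type} [Group H] (a : H →* Equiv.Perm X) (x : O → X)
    (bij : ∀ y, ∃! i, ∃ h : H, y = a h (x i)) : (Sys.ofBij a x bij).x = x := rfl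

section quot

variable {G : Type} [Group G] (W : Subgroup G)

/-- the action of `G` on `G ⧸ W` -/
def actQ : G →* Equiv.Perm (G ⧸ W) := MulAction.toPermHom G (G ⧸ W)

@[simp] lemma actQ_apply (g : G) (y : G ⧸ W) : actQ W g y = g • y := rfl

lemma actQ_mk (g h : G) : actQ W g (h : G ⧸ W) = ((g * h : G) : G ⧸ W) := rfl

variable {W}

lemma smul_mk_eq_iff (hW : W.Normal) (g h : G) : g • (h : G ⧸ W) = (h : G ⧸ W) ↔ g ∈ W := by
  change ((g * h : G) : G ⧸ W) = (h : G ⧸ W) ↔ _
  rw [QuotientGroup.eq]
  constructor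
  · intro H
    have := hW.conj_mem _ (W.inv_mem H) h
    simpa [mul_assoc] using this
  · intro H
    have := hW.conj_mem _ (W.inv_mem H) h⁻¹
    simpa [mul_assoc] using this

lemma smul_eq_of_mem (hW : W.Normal) {g : G} (hg : g ∈ W) (y : G ⧸ W) : g • y = y := by
  induction y using QuotientGroup.induction_on with
  | H h => exact (smul_mk_eq_iff hW g h).2 hg

end quot

end Fermat.Agent.CFT.Shapiro

namespace Fermat.Agent.CFT

open Shapiro

variable (D : Datum) {W : Subgroup D.G} (hW : W ∈ D.lev.carrier) (R : D.RestrData W)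

/-- the local system at `v` -/
noncomputable def Datum.RestrData.lSys (v : D.ι) : Sys (D.Gv v) (D.G ⧸ W) (R.O v) :=
  Sys.ofBij ((actQ W).comp (D.r v)) (fun o => ((R.g v o : D.G) : D.G ⧸ W)) (R.bij v)

/-- the global system -/
noncomputable def Datum.gSys (W : Subgroup D.G) : Sys D.G (D.G ⧸ W) Unit :=
  Sys.ofBij (actQ W) (fun _ => ((1 : D.G) : D.G ⧸ W)) (fun y => by
    refine ⟨(), ?_, fun _ _ => rfl⟩
    induction y using QuotientGroup.induction_on with
    | H h => exact ⟨h, by rw [actQ_mk, mul_one]⟩)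

variable (k : Type) [CommRing k]

include hW in
lemma Datum.gSetting : Setting (D.gSys W) D.lev (1 : Representation k D.G k) (permRep k W)
    (fun _ => W) (fun _ => (1 : Representation k W k)) where
  diag h F y := rfl
  triv := ⟨W, hW, fun u hu y => smul_eq_of_mem (D.lev.normal W hW) hu y⟩
  stab _ h := (smul_mk_eq_iff (D.lev.normal W hW) h 1).symm
  res _ _ _ := rfl

lemma Datum.RestrData.lSetting (v : D.ι) :
    Setting (R.lSys D v) (D.levv v) (1 : Representation k (D.Gv v) k) (D.loc (permRep k W) v)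
      (fun _ => W.comap (D.r v))
      (fun o => (D.restr hW R).loc (1 : Representation k (D.restr hW R).G k) ⟨v, o⟩) where
  diag h F y := by
    show F ((D.r v h)⁻¹ • y) = F ((D.r v h⁻¹) • y)
    rw [map_inv]
  triv := by
    obtain ⟨V, hV, hVW⟩ := D.cont v W hW
    exact ⟨V, hV, fun u hu y => smul_eq_of_mem (D.lev.normal W hW) (hVW hu) y⟩
  stab o h := (smul_mk_eq_iff (D.lev.normal W hW) (D.r v h) (R.g v o)).symm
  res _ _ _ := rfl

end Fermat.Agent.CFT
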