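import Fermat.Agent.CFT.F.Shapiro.Level

/-!
# CFT / Part F : Shapiro / Mackey layer.  Shapiro's lemma for `H` acting on `X`, subgroup form.

`K i ≤ H` is the stabiliser of the base point `x i`, `τ i` the restriction of `ρ` to `K i`,
`σ` the diagonal action on `X → V`.  `sh1`, `sh2`: evaluation at the base points.

* `sh1_mem_Z1`, `sh1_mem_B1`, `exists_Z1`, `mem_B1_of_sh1`
* `sh2_mem_Z2`, `sh2_mem_B2`, `exists_Z2`, `mem_B2_of_sh2`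
-/

set_option autoImplicit false

namespace Fermat.Agent.CFT.Shapiro

open Classical in
/-- extension by zero of a function on a subgroup -/
noncomputable def extZ {H : Type} [Group H] {V : Type} [Zero V] (K : Subgroup H) (c : K → V) :
    H → V := fun h => if hh : h ∈ K then c ⟨h, hh⟩ else 0

open Classical in
/-- extension by zero of a function on the square of a subgroup -/
noncomputable def extZ2 {H : Type} [Group H] {V : Type} [Zero V] (K : Subgroup H)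
    (c : K × K → V) : H × H → V :=
  fun h => if hh : h.1 ∈ K ∧ h.2 ∈ K then c (⟨h.1, hh.1⟩, ⟨h.2, hh.2⟩) else 0

lemma extZ_of_mem {H : Type} [Group H] {V : Type} [Zero V] (K : Subgroup H) (c : K → V) {h : H}
    (hh : h ∈ K) : extZ K c h = c ⟨h, hh⟩ := by
  simp [extZ, hh]

lemma extZ2_of_mem {H : Type} [Group H] {V : Type} [Zero V] (K : Subgroup H) (c : K × K → V)
    {h₁ h₂ : H} (hh₁ : h₁ ∈ K) (hh₂ : h₂ ∈ K) :
    extZ2 K c (h₁, h₂) = c (⟨h₁, hh₁⟩, ⟨h₂, hh₂⟩) := by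
  simp [extZ2, hh₁, hh₂]

variable {k : Type} [CommRing k] {H : Type} [Group H] {X O : Type} {V : Type} [AddCommGroup V]
  [Module k V]

lemma mem_Z1_iff {𝒰 : Levels H} {ρ : Representation k H V} {c : H → V} :
    c ∈ Z1 𝒰 ρ ↔ d12 ρ c = 0 ∧ 𝒰.LC1 c := Iff.rfl
lemma mem_Z2_iff {𝒰 : Levels H} {ρ : Representation k H V} {c : H × H → V} :
    c ∈ Z2 𝒰 ρ ↔ d23 ρ c = 0 ∧ 𝒰.LC2 c := Iff.rfl
lemma mem_B1_iff {ρ : Representation k H V} {c : H → V} :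
    c ∈ B1 ρ ↔ ∃ m, d01 ρ m = c := Iff.rfl
lemma mem_B2_iff {𝒰 : Levels H} {ρ : Representation k H V} {c : H × H → V} :
    c ∈ B2 𝒰 ρ ↔ ∃ b, 𝒰.LC1 b ∧ d12 ρ b = c := Iff.rfl

/-- evaluation of `1`-cochains at the base points -/
def sh1 (k : Type) [CommRing k] {V : Type} [AddCommGroup V] [Module k V]
    (x : O → X) (K : O → Subgroup H) : (H → X → V) →ₗ[k] (∀ i, K i → V) where
  toFun c i s := c s (x i)
  map_add' _ _ := rfl
  map_smul' _ _ := rfl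

/-- evaluation of `2`-cochains at the base points -/
def sh2 (k : Type) [CommRing k] {V : Type} [AddCommGroup V] [Module k V]
    (x : O → X) (K : O → Subgroup H) : (H × H → X → V) →ₗ[k] (∀ i, K i × K i → V) where
  toFun c i s := c (s.1, s.2) (x i)
  map_add' _ _ := rfl
  map_smul' _ _ := rfl

@[simp] lemma sh1_apply (x : O → X) (K : O → Subgroup H) (c : H → X → V) (i : O) (s : K i) :
    sh1 k x K c i s = c s (x i) := rfl
@[simp] lemma sh2_apply (x : O → X) (K : O → Subgroup H) (c : H × H → X → V) (i : O)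
    (s : K i × K i) : sh2 k x K c i s = c (s.1, s.2) (x i) := rfl

/-- The full setting of Shapiro's lemma. -/
structure Setting (S : Sys H X O) (𝒱 : Levels H) (ρ : Representation k H V)
    (σ : Representation k H (X → V)) (K : O → Subgroup H)
    (τ : ∀ i, Representation k (K i) V) : Prop where
  diag : IsDiag S.a ρ σ
  triv : S.Triv 𝒱
  stab : ∀ i h, h ∈ K i ↔ S.a h (S.x i) = S.x i
  res : ∀ i (s : K i) v, τ i s v = ρ s v

variable {S : Sys H X O} {𝒱 : Levels H} {ρ : Representation k H V}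
  {σ : Representation k H (X → V)} {K : O → Subgroup H} {τ : ∀ i, Representation k (K i) V}

namespace Setting

variable (T : Setting S 𝒱 ρ σ K τ)
include T

lemma sh1_mem_Z1 {c : H → X → V} (hc : c ∈ Z1 𝒱 σ) (i : O) :
    sh1 k S.x K c i ∈ Z1 (𝒱.comap (K i).subtype) (τ i) := by
  obtain ⟨h1, U, hU, h2⟩ := mem_Z1_iff.1 hc
  refine mem_Z1_iff.2 ⟨?_, U.comap (K i).subtype, 𝒱.mem_comap _ hU, fun g s hs => ?_⟩
  · funext s
    have := T.diag.coc1 h1 s.1 s.2 (S.x i)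
    rw [S.a_inv_x ((T.stab i _).1 s.1.2)] at this
    simpa [d12_apply, T.res] using this
  · have := congrFun (h2 g s hs) (S.x i)
    simpa using this

lemma sh1_mem_B1 {c : H → X → V} (hc : c ∈ B1 σ) (i : O) : sh1 k S.x K c i ∈ B1 (τ i) := by
  obtain ⟨m, rfl⟩ := hc
  refine ⟨m (S.x i), ?_⟩
  funext s
  rw [sh1_apply, T.diag.d01_apply, S.a_inv_x ((T.stab i _).1 s.2), d01_apply, T.res]

lemma exists_Z1 [Finite O] (c' : ∀ i, K i → V)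
    (hc' : ∀ i, c' i ∈ Z1 (𝒱.comap (K i).subtype) (τ i)) :
    ∃ c ∈ Z1 𝒱 σ, sh1 k S.x K c = c' := by
  refine ⟨S.co1 ρ (fun i => extZ (K i) (c' i)), mem_Z1_iff.2 ⟨?_, ?_⟩, ?_⟩
  · refine S.d12_co1_eq_zero T.diag _ fun i s₁ s₂ h₁ h₂ => ?_
    have m₁ := (T.stab i _).2 h₁
    have m₂ := (T.stab i _).2 h₂
    rw [extZ_of_mem _ _ m₁, extZ_of_mem _ _ m₂, extZ_of_mem _ _ ((K i).mul_mem m₁ m₂)]
    have := congrFun (mem_Z1_iff.1 (hc' i)).1 (⟨s₁, m₁⟩, ⟨s₂, m₂⟩)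
    simpa [d12_apply, T.res] using this
  · refine Sys.LC1_co1 T.triv _ fun i => ?_
    obtain ⟨_, ⟨U, hU, rfl⟩, h⟩ := (mem_Z1_iff.1 (hc' i)).2
    refine ⟨U, hU, fun s u hs hu huU => ?_⟩
    have m₁ := (T.stab i _).2 hs
    have m₂ := (T.stab i _).2 hu
    rw [extZ_of_mem _ _ m₁, extZ_of_mem _ _ ((K i).mul_mem m₁ m₂)]
    exact h ⟨s, m₁⟩ ⟨u, m₂⟩ huU
  · funext i s
    rw [sh1_apply, S.co1_x _ ((T.stab i _).1 s.2), extZ_of_mem _ _ s.2]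

lemma mem_B1_of_sh1 {c : H → X → V} (hc : c ∈ Z1 𝒱 σ) (h : ∀ i, sh1 k S.x K c i ∈ B1 (τ i)) :
    c ∈ B1 σ := by
  choose μ hμ using h
  refine ⟨S.co0 ρ μ - S.ho1 c, ?_⟩
  rw [map_sub, S.d01_co0 T.diag]
  conv_rhs => rw [S.eq_co1_sub T.diag (mem_Z1_iff.1 hc).1]
  congr 1
  refine Sys.co1_congr fun i s hs => ?_
  have := congrFun (hμ i) ⟨s, (T.stab i _).2 hs⟩
  simpa [d01_apply, T.res] using this

lemma sh2_mem_Z2 {c : H × H → X → V} (hc : c ∈ Z2 𝒱 σ) (i : O) :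
    sh2 k S.x K c i ∈ Z2 (𝒱.comap (K i).subtype) (τ i) := by
  obtain ⟨h1, U, hU, h2⟩ := mem_Z2_iff.1 hc
  refine mem_Z2_iff.2 ⟨?_, U.comap (K i).subtype, 𝒱.mem_comap _ hU,
    fun g₁ g₂ s₁ s₂ hs₁ hs₂ => ?_⟩
  · funext s
    have := T.diag.coc2 h1 s.1 s.2.1 s.2.2 (S.x i)
    rw [S.a_inv_x ((T.stab i _).1 s.1.2)] at this
    simpa [d23_apply, T.res] using this
  · have := congrFun (h2 g₁ g₂ s₁ s₂ hs₁ hs₂) (S.x i)
    simpa using this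

lemma sh2_mem_B2 {c : H × H → X → V} (hc : c ∈ B2 𝒱 σ) (i : O) :
    sh2 k S.x K c i ∈ B2 (𝒱.comap (K i).subtype) (τ i) := by
  obtain ⟨b, ⟨U, hU, hb⟩, rfl⟩ := hc
  refine ⟨sh1 k S.x K b i, ⟨U.comap (K i).subtype, 𝒱.mem_comap _ hU, fun g s hs => ?_⟩, ?_⟩
  · have := congrFun (hb g s hs) (S.x i)
    simpa using this
  · funext s
    rw [sh2_apply, T.diag.d12_apply, S.a_inv_x ((T.stab i _).1 s.1.2), d12_apply, T.res]
    rfl

lemma exists_Z2 [Finite O] (c' : ∀ i, K i × K i → V)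
    (hc' : ∀ i, c' i ∈ Z2 (𝒱.comap (K i).subtype) (τ i)) :
    ∃ c ∈ Z2 𝒱 σ, sh2 k S.x K c = c' := by
  refine ⟨S.co2 ρ (fun i => extZ2 (K i) (c' i)), mem_Z2_iff.2 ⟨?_, ?_⟩, ?_⟩
  · refine S.d23_co2 T.diag _ fun i s₁ s₂ s₃ h₁ h₂ h₃ => ?_
    have m₁ := (T.stab i _).2 h₁
    have m₂ := (T.stab i _).2 h₂
    have m₃ := (T.stab i _).2 h₃
    rw [extZ2_of_mem _ _ m₂ m₃, extZ2_of_mem _ _ ((K i).mul_mem m₁ m₂) m₃,
      extZ2_of_mem _ _ m₁ ((K i).mul_mem m₂ m₃), extZ2_of_mem _ _ m₁ m₂]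
    have := congrFun (mem_Z2_iff.1 (hc' i)).1 (⟨s₁, m₁⟩, ⟨s₂, m₂⟩, ⟨s₃, m₃⟩)
    simpa [d23_apply, T.res] using this
  · refine Sys.LC2_co2 T.triv _ fun i => ?_
    obtain ⟨_, ⟨U, hU, rfl⟩, h⟩ := (mem_Z2_iff.1 (hc' i)).2
    refine ⟨U, hU, fun s₁ s₂ u₁ u₂ hs₁ hs₂ hu₁ hu₂ huU₁ huU₂ => ?_⟩
    have m₁ := (T.stab i _).2 hs₁
    have m₂ := (T.stab i _).2 hs₂
    have n₁ := (T.stab i _).2 hu₁
    have n₂ := (T.stab i _).2 hu₂
    rw [extZ2_of_mem _ _ m₁ m₂, extZ2_of_mem _ _ ((K i).mul_mem m₁ n₁) ((K i).mul_mem m₂ n₂)]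
    exact h ⟨s₁, m₁⟩ ⟨s₂, m₂⟩ ⟨u₁, n₁⟩ ⟨u₂, n₂⟩ huU₁ huU₂
  · funext i s
    rw [sh2_apply, S.co2_x _ ((T.stab i _).1 s.1.2) ((T.stab i _).1 s.2.2),
      extZ2_of_mem _ _ s.1.2 s.2.2]

lemma mem_B2_of_sh2 [Finite O] {c : H × H → X → V} (hc : c ∈ Z2 𝒱 σ)
    (h : ∀ i, sh2 k S.x K c i ∈ B2 (𝒱.comap (K i).subtype) (τ i)) : c ∈ B2 𝒱 σ := by
  choose β hβ hβc using h
  refine ⟨S.co1 ρ (fun i => extZ (K i) (β i)) - S.ho2 c, ?_, ?_⟩
  · refine Submodule.sub_mem _ ?_ (Sys.LC1_ho2 T.triv (mem_Z2_iff.1 hc).2)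
    refine Sys.LC1_co1 T.triv _ fun i => ?_
    obtain ⟨_, ⟨U, hU, rfl⟩, h⟩ := hβ i
    refine ⟨U, hU, fun s u hs hu huU => ?_⟩
    have m₁ := (T.stab i _).2 hs
    have m₂ := (T.stab i _).2 hu
    rw [extZ_of_mem _ _ m₁, extZ_of_mem _ _ ((K i).mul_mem m₁ m₂)]
    exact h ⟨s, m₁⟩ ⟨u, m₂⟩ huU
  · rw [map_sub, S.d12_co1 T.diag]
    conv_rhs => rw [S.eq_co2_sub T.diag (mem_Z2_iff.1 hc).1]
    congr 1
    refine Sys.co2_congr fun i s₁ s₂ hs₁ hs₂ => ?_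
    have m₁ := (T.stab i _).2 hs₁
    have m₂ := (T.stab i _).2 hs₂
    have := congrFun (hβc i) (⟨s₁, m₁⟩, ⟨s₂, m₂⟩)
    simp only [extZ_of_mem _ _ m₁, extZ_of_mem _ _ m₂, extZ_of_mem _ _ ((K i).mul_mem m₁ m₂)]
    simpa [d12_apply, T.res] using this

end Setting

end Fermat.Agent.CFT.Shapiro
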